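import Mathlib

/-!
# S43 / GS2 / Abs : the relation (R) from the tower, at finite level  (Mathlib only)

`Mm` an abelian group killed by `p ^ K` (think `Mm = H / Nm H`, or `Mm = w H`, `H` the tower module of exponent `p ^ K`).
Operators (`ℤ`-linear endomorphisms of `Mm`): `d` (`= δ`), `s` (`= Σ`), `f` (`= Φ`), `io` (`= ι`, Atkin-Lehner).
`w = d - 1`, `ν = s - 1`, `tF = f + q f⁻¹`, `c1 = f ν - q f⁻¹ ν + q f⁻¹ w`  (`= t(Φ Σ) - t(Φ)`).

`Data.exists_b` : there is `b : Mm → Mm`, additive modulo `w Mm`, preserving `w Mm`, commuting modulo `w Mm` with every additive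
`g` which commutes with `w`, `c1`, `tF`, such that `f x - ε x - ν (b x) ∈ w Mm`.
`Data.exists_beta` : the same as an honest endomorphism `β` of any quotient `pr : Mm → Vb` with kernel `w Mm`.
-/

set_option autoImplicit false

namespace Fermat.Agent.S43.GS2

variable {Mm : Type*} [AddCommGroup Mm]

/-- `w Mm`, `w = d - 1`. -/
def WW (d : Module.End ℤ Mm) : Submodule ℤ Mm := LinearMap.range (d - 1)

/-- `p ^ j Mm`. -/
def PP (Mm : Type*) [AddCommGroup Mm] (p j : ℕ) : Submodule ℤ Mm :=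
  LinearMap.range (((p : ℤ) ^ j) • (1 : Module.End ℤ Mm))

theorem mem_WW {d : Module.End ℤ Mm} {x : Mm} : x ∈ WW d ↔ ∃ y, d y - y = x := by
  simp [WW, LinearMap.mem_range]

theorem mem_PP {p j : ℕ} {x : Mm} : x ∈ PP Mm p j ↔ ∃ y, ((p : ℤ) ^ j) • y = x := by
  rw [PP, LinearMap.mem_range]
  rfl

theorem map_mem_PP {p j : ℕ} (A : Module.End ℤ Mm) {x : Mm} (hx : x ∈ PP Mm p j) :
    A x ∈ PP Mm p j := by
  obtain ⟨y, rfl⟩ := mem_PP.1 hx
  exact mem_PP.2 ⟨A y, by rw [map_zsmul]⟩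

theorem PP_le {p i j : ℕ} (h : i ≤ j) : PP Mm p j ≤ PP Mm p i := by
  intro x hx
  obtain ⟨y, rfl⟩ := mem_PP.1 hx
  refine mem_PP.2 ⟨((p : ℤ) ^ (j - i)) • y, ?_⟩
  rw [smul_smul, ← pow_add, Nat.add_sub_cancel' h]

/-- the hypotheses. -/
structure Data (p a K q : ℕ) (ε ε' : ℤ) (d di s f fi io ioi : Module.End ℤ Mm) : Prop where
  odd : Odd p
  hK : 3 * a ≤ K
  hε' : ε' * ε' = 1
  hq : ((p : ℤ) ^ a) ∣ (q : ℤ) - 1
  hpK : ∀ x : Mm, ((p : ℤ) ^ K) • x = 0
  d_di : ∀ x, d (di x) = x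
  di_d : ∀ x, di (d x) = x
  f_fi : ∀ x, f (fi x) = x
  fi_f : ∀ x, fi (f x) = x
  io_ioi : ∀ x, io (ioi x) = x
  ds : ∀ x, d (s x) = s (d x)
  df : ∀ x, d (f x) = f (d x)
  sf : ∀ x, s (f x) = f (s x)
  /-- (H3) `ν ν = w ν`. -/
  h3 : ∀ x, s (s x) = s (d x) + s x - d x
  /-- (H4) -/
  io_d : ∀ x, io (d x) = di (io x)
  io_s : ∀ x, io (s x) = di (s (io x))
  io_f : ∀ x, io (f x) = f (io x)
  io_sc : ∀ x, io x - ε' • x ∈ WW d
  /-- (V1) `c1 Mm ⊆ w Mm`. -/
  v1 : ∀ x, f (s x - x) - (q : ℤ) • fi (s x - x) + (q : ℤ) • fi (d x - x) ∈ WW d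
  /-- (V2) -/
  v2 : ∀ x, f x + (q : ℤ) • fi x - (ε * (1 + q)) • x ∈ WW d
  /-- (C) -/
  c0 : ∀ y, d y - y = 0 → y ∈ PP Mm p (K - a)
  c1 : ∀ y, d y - y ∈ PP Mm p (K - a) → y ∈ PP Mm p (K - 2 * a)
  /-- (P) -/
  hP : PP Mm p a ≤ WW d

namespace Data

variable {p a K q : ℕ} {ε ε' : ℤ} {d di s f fi io ioi : Module.End ℤ Mm}
  (D : Data p a K q ε ε' d di s f fi io ioi)

include D

theorem dfi (x : Mm) : d (fi x) = fi (d x) := by
  have h := D.df (fi x)
  rw [D.f_fi] at h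
  rw [h, D.fi_f]

theorem sfi (x : Mm) : s (fi x) = fi (s x) := by
  have h := D.sf (fi x)
  rw [D.f_fi] at h
  rw [h, D.fi_f]

theorem dis (x : Mm) : di (s x) = s (di x) := by
  have h := D.ds (di x)
  rw [D.d_di] at h
  rw [← h, D.di_d]

theorem dif (x : Mm) : di (f x) = f (di x) := by
  have h := D.df (di x)
  rw [D.d_di] at h
  rw [← h, D.di_d]

theorem difi (x : Mm) : di (fi x) = fi (di x) := by
  have h := D.dfi (di x)
  rw [D.d_di] at h
  rw [← h, D.di_d]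

theorem io_fi (x : Mm) : io (fi x) = fi (io x) := by
  have h := D.io_f (fi x)
  rw [D.f_fi] at h
  rw [h, D.fi_f]

theorem di_inj {x : Mm} (h : di x = 0) : x = 0 := by
  have := D.d_di x
  rw [h, map_zero] at this
  exact this.symm

/-- `P_{K-2a} ⊆ w Mm`. -/
theorem PP2_le : PP Mm p (K - 2 * a) ≤ WW d :=
  (PP_le (by have := D.hK; omega)).trans D.hP

theorem PP1_le : PP Mm p (K - a) ≤ WW d :=
  (PP_le (by have := D.hK; omega)).trans D.hP

omit D in
/-- operators commuting with `d` preserve `w Mm`. -/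
theorem map_mem_WW (A : Module.End ℤ Mm) (hA : ∀ x, A (d x) = d (A x)) {x : Mm} (hx : x ∈ WW d) :
    A x ∈ WW d := by
  obtain ⟨y, rfl⟩ := mem_WW.1 hx
  exact mem_WW.2 ⟨A y, by rw [map_sub, hA]⟩

theorem half {v : Mm} (h : (2 : ℤ) • v ∈ WW d) : v ∈ WW d := by
  have hcop : IsCoprime (2 : ℤ) ((p : ℤ) ^ K) := by
    apply IsCoprime.pow_right
    obtain ⟨k, hk⟩ := D.odd
    refine ⟨-k, 1, ?_⟩
    rw [hk]; push_cast; ring
  obtain ⟨u, v', huv⟩ := hcop
  have e : v = u • ((2 : ℤ) • v) := by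
    have h1 : (u * 2 + v' * (p : ℤ) ^ K) • v = v := by rw [huv, one_smul]
    rw [add_smul, mul_smul, mul_smul, D.hpK, smul_zero, add_zero] at h1
    exact h1.symm
  rw [e]
  exact (WW d).smul_mem u h

/-- the operator `c1`, elementwise. -/
def cc (_D : Data p a K q ε ε' d di s f fi io ioi) (x : Mm) : Mm :=
  f (s x - x) - (q : ℤ) • fi (s x - x) + (q : ℤ) • fi (d x - x)

/-- the operator `tF`, elementwise. -/
def tt (_D : Data p a K q ε ε' d di s f fi io ioi) (x : Mm) : Mm := f x + (q : ℤ) • fi x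

theorem cc_add (x y : Mm) : D.cc (x + y) = D.cc x + D.cc y := by
  simp only [cc, map_add, map_sub, smul_add, smul_sub]
  abel

theorem cc_zsmul (n : ℤ) (x : Mm) : D.cc (n • x) = n • D.cc x := by
  simp only [cc, map_zsmul, ← smul_sub]
  rw [smul_comm (q : ℤ) n, smul_comm (q : ℤ) n, ← smul_sub, ← smul_add]

theorem tt_add (x y : Mm) : D.tt (x + y) = D.tt x + D.tt y := by
  simp only [tt, map_add, smul_add]
  abel

/-- (Ia) `w f ν = c1 ν`. -/
theorem Ia (x : Mm) : d (f (s x - x)) - f (s x - x) = D.cc (s x - x) := by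
  simp only [cc, map_sub, D.h3, D.df, D.ds, smul_sub, smul_add, map_add]
  abel

/-- `c1 ν = ν c1`. -/
theorem cc_nu (x : Mm) : D.cc (s x - x) = s (D.cc x) - D.cc x := by
  simp only [cc, map_sub, map_add, map_zsmul, D.sf, D.sfi, D.ds, smul_sub]
  abel

/-- `c1 w = w c1`. -/
theorem cc_w (x : Mm) : D.cc (d x - x) = d (D.cc x) - D.cc x := by
  simp only [cc, map_sub, map_add, map_zsmul, D.df, D.dfi, D.ds, smul_sub]
  abel

theorem tt_w (x : Mm) : D.tt (d x - x) = d (D.tt x) - D.tt x := by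
  simp only [tt, map_sub, map_add, map_zsmul, D.df, D.dfi, smul_sub]
  abel

theorem tt_nu (x : Mm) : D.tt (s x - x) = s (D.tt x) - D.tt x := by
  simp only [tt, map_sub, map_add, map_zsmul, D.sf, D.sfi, smul_sub]
  abel

/-- (Ib) `2 f ν = w f + tF ν + c1 - w tF`. -/
theorem Ib (x : Mm) : (2 : ℤ) • f (s x - x)
    = (d (f x) - f x) + D.tt (s x - x) + D.cc x - (d (D.tt x) - D.tt x) := by
  simp only [cc, tt, map_sub, map_add, map_zsmul, D.df, D.dfi, smul_sub, two_smul]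
  abel

/-- (Ic) `ι c1 = δ⁻¹ (c1 - w tF) ι`. -/
theorem Ic (u : Mm) : io (D.cc u) = di (D.cc (io u) - (d (D.tt (io u)) - D.tt (io u))) := by
  simp only [cc, tt, map_sub, map_add, map_zsmul, D.io_f, D.io_fi, D.io_s, D.io_d, D.df, D.dfi,
    D.dif, D.difi, D.dis, D.di_d, smul_sub]
  abel

/-- (Id) `ι w = - δ⁻¹ w ι`. -/
theorem Id (u : Mm) : io (d u - u) = - di (d (io u) - io u) := by
  simp only [map_sub, D.io_d, D.di_d]
  abel

/-- the relation `z = k x`. -/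
def Rl (D : Data p a K q ε ε' d di s f fi io ioi) (x z : Mm) : Prop :=
  ∃ y, D.cc x = d y - y ∧ (2 : ℤ) • y - D.tt x - (d z - z) ∈ PP Mm p (K - a)

theorem exists_y (x : Mm) : ∃ y, D.cc x = d y - y := by
  obtain ⟨y, hy⟩ := mem_WW.1 (D.v1 x)
  exact ⟨y, hy.symm⟩

/-- cancellation of `w` at the top level. -/
theorem cancel0 {y y' : Mm} (h : d y - y = d y' - y') : y - y' ∈ PP Mm p (K - a) := by
  apply D.c0
  rw [map_sub]
  have : d y - d y' - (y - y') = (d y - y) - (d y' - y') := by abel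
  rw [this, h, sub_self]

/-- L2 : `Φ ν x ≡ ν y`. -/
theorem L2 {x y : Mm} (h : D.cc x = d y - y) : f (s x - x) - (s y - y) ∈ PP Mm p (K - a) := by
  apply D.cancel0
  rw [D.Ia, D.cc_nu, h]
  simp only [map_sub, D.ds]
  abel

/-- L3. -/
theorem L3 {x y : Mm} (h : D.cc x = d y - y) :
    ∃ e ∈ PP Mm p (K - a), d (f x - D.tt x + y) - (f x - D.tt x + y)
      = (s ((2 : ℤ) • y - D.tt x) - ((2 : ℤ) • y - D.tt x)) + e := by
  refine ⟨(2 : ℤ) • (f (s x - x) - (s y - y)), (PP Mm p (K - a)).smul_mem _ (D.L2 h), ?_⟩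
  rw [smul_sub, D.Ib, h, D.tt_nu]
  simp only [map_sub, map_add, smul_sub, two_smul]
  abel

/-- L4 : `D x = 2 y - tF x ∈ w Mm + p^(K-a) Mm`. -/
theorem L4 {x y : Mm} (h : D.cc x = d y - y) :
    ∃ z, (2 : ℤ) • y - D.tt x - (d z - z) ∈ PP Mm p (K - a) := by
  obtain ⟨yu, hyu⟩ := D.exists_y (ioi x)
  -- (iii)
  have h1 : y - D.tt x + io yu ∈ PP Mm p (K - a) := by
    apply D.c0
    apply D.di_inj
    have e1 := D.Ic (ioi x)
    rw [D.io_ioi, hyu, D.Id, h] at e1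
    have e2 : di (d (y - D.tt x + io yu) - (y - D.tt x + io yu))
        = di (d y - y - (d (D.tt x) - D.tt x)) + di (d (io yu) - io yu) := by
      simp only [map_sub, map_add]
      abel
    rw [e2, ← e1]
    abel
  -- `u ≡ ε' x`
  obtain ⟨m, hm⟩ := mem_WW.1 (D.io_sc (ioi x))
  rw [D.io_ioi] at hm
  -- `ioi x = ε' x - ε' (w m)`
  have hu : ioi x = ε' • x - (d (ε' • m) - ε' • m) := by
    have e3 : ε' • (ε' • ioi x) = ioi x := by rw [smul_smul, D.hε', one_smul]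
    have e4 : ε' • ioi x = x - (d m - m) := by rw [hm]; abel
    rw [← e3, e4, map_zsmul, smul_sub, smul_sub]
  have h2 : yu - (ε' • y - D.cc (ε' • m)) ∈ PP Mm p (K - a) := by
    apply D.cancel0
    rw [← hyu, hu]
    have e5 : D.cc (ε' • x - (d (ε' • m) - ε' • m))
        = D.cc (ε' • x) - D.cc (d (ε' • m) - ε' • m) := by
      have := D.cc_add (ε' • x - (d (ε' • m) - ε' • m)) (d (ε' • m) - ε' • m)
      rw [sub_add_cancel] at this
      rw [this]; abel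
    rw [e5, D.cc_zsmul, h, D.cc_w]
    simp only [map_sub, map_zsmul, smul_sub]
    abel
  obtain ⟨m1, hm1⟩ := mem_WW.1 (D.v1 (ε' • m))
  obtain ⟨m2, hm2⟩ := mem_WW.1 (D.io_sc yu)
  -- `io yu = ε' yu + w m2`, `yu = ε' y - w m1 + e`
  refine ⟨ε' • m1 - m2, ?_⟩
  have e6 : (2 : ℤ) • y - D.tt x - (d (ε' • m1 - m2) - (ε' • m1 - m2))
      = (y - D.tt x + io yu) - ε' • (yu - (ε' • y - D.cc (ε' • m))) := by
    have e7 : io yu = ε' • yu + (d m2 - m2) := by rw [hm2]; abel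
    have e8 : D.cc (ε' • m) = d m1 - m1 := hm1.symm
    have e9 : ε' • (ε' • y) = y := by rw [smul_smul, D.hε', one_smul]
    rw [e7, e8]
    simp only [map_sub, map_zsmul, smul_sub, e9, two_smul]
    abel
  rw [e6]
  exact (PP Mm p (K - a)).sub_mem h1 ((PP Mm p (K - a)).smul_mem _ h2)

theorem Rl_total (x : Mm) : ∃ z, D.Rl x z := by
  obtain ⟨y, hy⟩ := D.exists_y x
  obtain ⟨z, hz⟩ := D.L4 hy
  exact ⟨z, y, hy, hz⟩

/-- L5 : the relation (R). -/
theorem L5 {x z : Mm} (h : D.Rl x z) : f x - ε • x - (s z - z) ∈ WW d := by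
  obtain ⟨y, hy, hz⟩ := h
  obtain ⟨e, he, h3⟩ := D.L3 hy
  -- first part
  have h1 : f x - D.tt x + y - (s z - z) ∈ WW d := by
    apply D.PP2_le
    apply D.c1
    set r := (2 : ℤ) • y - D.tt x - (d z - z) with hr
    have e1 : d (f x - D.tt x + y - (s z - z)) - (f x - D.tt x + y - (s z - z))
        = (s r - r) + e := by
      have e2 : d (f x - D.tt x + y - (s z - z)) - (f x - D.tt x + y - (s z - z))
          = (d (f x - D.tt x + y) - (f x - D.tt x + y)) - (d (s z - z) - (s z - z)) := by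
        simp only [map_sub, map_add]
        abel
      rw [e2, h3, hr]
      simp only [map_sub, D.ds]
      abel
    rw [e1]
    exact (PP Mm p (K - a)).add_mem
      ((PP Mm p (K - a)).sub_mem (map_mem_PP s hz) hz) he
  -- second part
  have h2 : D.tt x - y - ε • x ∈ WW d := by
    apply D.half
    obtain ⟨c, hc⟩ := D.hq
    have e3 : (2 : ℤ) • (D.tt x - y - ε • x)
        = (D.tt x - (ε * (1 + q)) • x) - ((2 : ℤ) • y - D.tt x - (d z - z)) - (d z - z)
          + ((p : ℤ) ^ a) • ((ε * c) • x) := by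
      have e4 : ((p : ℤ) ^ a) • ((ε * c) • x) = (ε * ((q : ℤ) - 1)) • x := by
        rw [smul_smul, hc]; congr 1; ring
      rw [e4]
      simp only [smul_sub, two_smul, mul_add, mul_sub, mul_one, add_smul, sub_smul]
      abel
    rw [e3]
    refine (WW d).add_mem ((WW d).sub_mem ((WW d).sub_mem (D.v2 x) (D.PP1_le hz))
      (mem_WW.2 ⟨z, rfl⟩)) (D.hP (mem_PP.2 ⟨_, rfl⟩))
  have e5 : f x - ε • x - (s z - z)
      = (f x - D.tt x + y - (s z - z)) + (D.tt x - y - ε • x) := by abel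
  rw [e5]
  exact (WW d).add_mem h1 h2

theorem Rl_sub {x z x' z' : Mm} (h : D.Rl x z) (h' : D.Rl x' z') : D.Rl (x - x') (z - z') := by
  obtain ⟨y, hy, hz⟩ := h
  obtain ⟨y', hy', hz'⟩ := h'
  refine ⟨y - y', ?_, ?_⟩
  · have := D.cc_add (x - x') x'
    rw [sub_add_cancel] at this
    rw [map_sub, eq_sub_of_add_eq this.symm, hy, hy']
    abel
  · have := D.tt_add (x - x') x'
    rw [sub_add_cancel] at this
    have e : (2 : ℤ) • (y - y') - D.tt (x - x') - (d (z - z') - (z - z'))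
        = ((2 : ℤ) • y - D.tt x - (d z - z)) - ((2 : ℤ) • y' - D.tt x' - (d z' - z')) := by
      rw [eq_sub_of_add_eq this.symm, map_sub, smul_sub]
      abel
    rw [e]
    exact (PP Mm p (K - a)).sub_mem hz hz'

theorem Rl_add {x z x' z' : Mm} (h : D.Rl x z) (h' : D.Rl x' z') : D.Rl (x + x') (z + z') := by
  obtain ⟨y, hy, hz⟩ := h
  obtain ⟨y', hy', hz'⟩ := h'
  refine ⟨y + y', ?_, ?_⟩
  · rw [D.cc_add, hy, hy', map_add]
    abel
  · have e : (2 : ℤ) • (y + y') - D.tt (x + x') - (d (z + z') - (z + z'))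
        = ((2 : ℤ) • y - D.tt x - (d z - z)) + ((2 : ℤ) • y' - D.tt x' - (d z' - z')) := by
      rw [D.tt_add, map_add, smul_add]
      abel
    rw [e]
    exact (PP Mm p (K - a)).add_mem hz hz'

theorem cc_zero : D.cc 0 = 0 := by simp [cc]

theorem tt_zero : D.tt 0 = 0 := by simp [tt]

/-- uniqueness. -/
theorem Rl_zero {z : Mm} (h : D.Rl 0 z) : z ∈ WW d := by
  obtain ⟨y, hy, hz⟩ := h
  rw [D.cc_zero] at hy
  rw [D.tt_zero, sub_zero] at hz
  have h1 : y ∈ PP Mm p (K - a) := D.c0 y hy.symm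
  apply D.PP2_le
  apply D.c1
  have e : d z - z = (2 : ℤ) • y - ((2 : ℤ) • y - (d z - z)) := by abel
  rw [e]
  exact (PP Mm p (K - a)).sub_mem ((PP Mm p (K - a)).smul_mem _ h1) hz

theorem Rl_unique {x z z' : Mm} (h : D.Rl x z) (h' : D.Rl x z') : z - z' ∈ WW d := by
  have := D.Rl_sub h h'
  rw [sub_self] at this
  exact D.Rl_zero this

/-- stability under `w`. -/
theorem Rl_w {x z : Mm} (h : D.Rl x z) : D.Rl (d x - x) (d z - z) := by
  obtain ⟨y, hy, hz⟩ := h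
  refine ⟨d y - y, by rw [D.cc_w, hy], ?_⟩
  have e : (2 : ℤ) • (d y - y) - D.tt (d x - x) - (d (d z - z) - (d z - z))
      = d ((2 : ℤ) • y - D.tt x - (d z - z)) - ((2 : ℤ) • y - D.tt x - (d z - z)) := by
    rw [D.tt_w]
    simp only [map_sub, map_zsmul, smul_sub]
    abel
  rw [e]
  exact (PP Mm p (K - a)).sub_mem (map_mem_PP d hz) hz

/-- stability under operators commuting with `w`, `c1`, `tF`. -/
theorem Rl_map (g : Module.End ℤ Mm) (hgd : ∀ x, g (d x) = d (g x))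
    (hgc : ∀ x, g (D.cc x) = D.cc (g x)) (hgt : ∀ x, g (D.tt x) = D.tt (g x)) {x z : Mm}
    (h : D.Rl x z) : D.Rl (g x) (g z) := by
  obtain ⟨y, hy, hz⟩ := h
  refine ⟨g y, by rw [← hgc, hy, map_sub, hgd], ?_⟩
  have e : (2 : ℤ) • g y - D.tt (g x) - (d (g z) - g z)
      = g ((2 : ℤ) • y - D.tt x - (d z - z)) := by
    simp only [map_sub, map_zsmul, hgd, hgt]
  rw [e]
  exact map_mem_PP g hz

/-- **(R), function form.** -/
theorem exists_b : ∃ b : Mm → Mm,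
    (∀ x y, b (x + y) - (b x + b y) ∈ WW d) ∧
    (∀ x ∈ WW d, b x ∈ WW d) ∧
    (∀ x, f x - ε • x - (s (b x) - b x) ∈ WW d) ∧
    (∀ g : Module.End ℤ Mm, (∀ x, g (d x) = d (g x)) → (∀ x, g (D.cc x) = D.cc (g x)) →
      (∀ x, g (D.tt x) = D.tt (g x)) → ∀ x, b (g x) - g (b x) ∈ WW d) := by
  choose b hb using D.Rl_total
  refine ⟨b, fun x y => D.Rl_unique (hb _) (D.Rl_add (hb x) (hb y)), fun x hx => ?_,
    fun x => D.L5 (hb x), fun g h1 h2 h3 x => D.Rl_unique (hb _) (D.Rl_map g h1 h2 h3 (hb x))⟩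
  obtain ⟨x1, rfl⟩ := mem_WW.1 hx
  have h1 := D.Rl_unique (hb (d x1 - x1)) (D.Rl_w (hb x1))
  have e : b (d x1 - x1) = (b (d x1 - x1) - (d (b x1) - b x1)) + (d (b x1) - b x1) := by abel
  rw [e]
  exact (WW d).add_mem h1 (mem_WW.2 ⟨_, rfl⟩)

/-- **(R), endomorphism form**: `pr : Mm → Vb` onto with kernel `w Mm`. -/
theorem exists_beta {Vb : Type*} [AddCommGroup Vb] (pr : Mm →+ Vb)
    (hsurj : Function.Surjective pr) (hker : ∀ x, pr x = 0 ↔ x ∈ WW d) :
    ∃ β : Vb →+ Vb,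
      (∀ x, ∃ z, β (pr x) = pr z ∧ pr (f x) - ε • pr x = pr (s z) - pr z) ∧
      (∀ (g : Module.End ℤ Mm) (gV : Vb → Vb), (∀ x, pr (g x) = gV (pr x)) →
        (∀ x, g (d x) = d (g x)) → (∀ x, g (D.cc x) = D.cc (g x)) →
        (∀ x, g (D.tt x) = D.tt (g x)) → ∀ v, β (gV v) = gV (β v)) := by
  obtain ⟨b, hb1, hb2, hb3, hb4⟩ := D.exists_b
  have hpr : ∀ {x y : Mm}, x - y ∈ WW d → pr x = pr y := fun {x y} h => by
    have := (hker _).2 h
    rwa [map_sub, sub_eq_zero] at this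
  have hwd : ∀ x y : Mm, pr x = pr y → pr (b x) = pr (b y) := by
    intro x y hxy
    have h1 : x - y ∈ WW d := (hker _).1 (by rw [map_sub, hxy, sub_self])
    have h2 := hb1 (x - y) y
    rw [sub_add_cancel] at h2
    have h3 := hpr h2
    rw [h3, map_add, (hker _).2 (hb2 _ h1), zero_add]
  choose sec hsec using hsurj
  have hβ : ∀ x, pr (b (sec (pr x))) = pr (b x) := fun x => hwd _ _ (hsec _)
  let β : Vb →+ Vb :=
    { toFun := fun v => pr (b (sec v))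
      map_zero' := by
        have h0 : pr (b 0) = 0 := (hker _).2 (hb2 0 (WW d).zero_mem)
        have := hβ 0
        rw [map_zero] at this
        rw [this, h0]
      map_add' := by
        intro u v
        have h1 : pr (b (sec (u + v))) = pr (b (sec u + sec v)) :=
          hwd _ _ (by rw [hsec, map_add, hsec, hsec])
        show pr (b (sec (u + v))) = pr (b (sec u)) + pr (b (sec v))
        rw [h1, hpr (hb1 _ _), map_add] }
  have hβ' : ∀ x, β (pr x) = pr (b x) := hβ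
  refine ⟨β, fun x => ⟨b x, hβ' x, ?_⟩, ?_⟩
  · have := (hker _).2 (hb3 x)
    rw [map_sub, map_sub, map_sub, map_zsmul, sub_eq_zero] at this
    exact this
  · intro g gV hg h1 h2 h3 v
    obtain ⟨x, rfl⟩ : ∃ x, pr x = v := ⟨sec v, hsec v⟩
    rw [← hg, hβ', hβ', ← hg]
    exact hpr (hb4 g h1 h2 h3 x)

/-- **(R)** with the induced operators `fV`, `sV` on `Vb`: `Φ - ε = (Σ - 1) β`. -/
theorem exists_beta' {Vb : Type*} [AddCommGroup Vb] (pr : Mm →+ Vb)
    (hsurj : Function.Surjective pr) (hker : ∀ x, pr x = 0 ↔ x ∈ WW d)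
    (fV sV : Vb → Vb) (hf : ∀ x, pr (f x) = fV (pr x)) (hs : ∀ x, pr (s x) = sV (pr x)) :
    ∃ β : Vb →+ Vb,
      (∀ v, fV v - ε • v = sV (β v) - β v) ∧
      (∀ (g : Module.End ℤ Mm) (gV : Vb → Vb), (∀ x, pr (g x) = gV (pr x)) →
        (∀ x, g (d x) = d (g x)) → (∀ x, g (D.cc x) = D.cc (g x)) →
        (∀ x, g (D.tt x) = D.tt (g x)) → ∀ v, β (gV v) = gV (β v)) := by
  obtain ⟨β, h1, h2⟩ := D.exists_beta pr hsurj hker
  refine ⟨β, fun v => ?_, h2⟩
  obtain ⟨x, rfl⟩ := hsurj v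
  obtain ⟨z, hz, h⟩ := h1 x
  rw [hz, ← hf, ← hs]
  exact h

end Data

end Fermat.Agent.S43.GS2
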